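import Mathlib

/-!
# S55 / CFT — explicit 2-cocycles of a finite cyclic group

Let `G` be a finite group generated by `s`, `n = orderOf s = |G|`, and `A : Rep k G`.
For `g : G` let `idx s g` be the unique `i < n` with `s ^ i = g`.  For `a : A` put

`cyc A s a (g, h) = ((idx s g + idx s h) / n) • a`   (the "carry" cocycle of the cyclic algebra).

* `cyc_mem_cocycles₂` : if `a` is `G`-invariant, `cyc A s a` is a 2-cocycle;
* `cyc_mem_coboundaries₂_iff` : it is a coboundary iff `a` is a norm `∑ g, ρ g b`;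
* `exists_sub_cyc_mem_coboundaries₂` : every 2-cocycle `f` is cohomologous to `cyc A s a` with
  `a = ∑_{i<n} f (s^i, s)` (which is invariant).

So `H²(G, A) = A^G / N A`, at the level of Mathlib's literal cocycles `cocycles₂ A`.
-/

set_option autoImplicit false

universe u

open groupCohomology Finset

namespace Fermat.Agent.S55.CycH2

section idx

variable {G : Type*} [Group G] [Finite G]

open Classical in
/-- The exponent `i < orderOf s` with `s ^ i = g` (junk value `0` if `g` is not a power of `s`). -/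
noncomputable def idx (s g : G) : ℕ :=
  if h : ∃ i, i < orderOf s ∧ s ^ i = g then Nat.find h else 0

theorem orderOf_pos_cyc (s : G) : 0 < orderOf s := orderOf_pos s

theorem exists_idx (s : G) (hs : ∀ x, x ∈ Subgroup.zpowers s) (g : G) :
    ∃ i, i < orderOf s ∧ s ^ i = g := by
  have h1 : g ∈ Submonoid.powers s := (mem_powers_iff_mem_zpowers).2 (hs g)
  obtain ⟨i, rfl⟩ := h1
  exact ⟨i % orderOf s, Nat.mod_lt _ (orderOf_pos s), pow_mod_orderOf s i⟩

theorem idx_lt (s : G) (g : G) : idx s g < orderOf s := by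
  classical
  unfold idx
  split_ifs with h
  · exact (Nat.find_spec h).1
  · exact orderOf_pos s

theorem pow_idx (s : G) (hs : ∀ x, x ∈ Subgroup.zpowers s) (g : G) : s ^ idx s g = g := by
  classical
  unfold idx
  rw [dif_pos (exists_idx s hs g)]
  exact (Nat.find_spec (exists_idx s hs g)).2

theorem idx_eq_of_pow_eq (s : G) (hs : ∀ x, x ∈ Subgroup.zpowers s) (g : G) (i : ℕ)
    (hi : i < orderOf s) (h : s ^ i = g) : idx s g = i := by
  have h1 : s ^ idx s g = s ^ i := by rw [pow_idx s hs g, h]
  have h2 := (pow_inj_mod (x := s)).1 h1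
  rwa [Nat.mod_eq_of_lt (idx_lt s g), Nat.mod_eq_of_lt hi] at h2

theorem idx_pow (s : G) (hs : ∀ x, x ∈ Subgroup.zpowers s) (i : ℕ) :
    idx s (s ^ i) = i % orderOf s :=
  idx_eq_of_pow_eq s hs _ _ (Nat.mod_lt _ (orderOf_pos s)) (pow_mod_orderOf s i)

theorem idx_one (s : G) (hs : ∀ x, x ∈ Subgroup.zpowers s) : idx s (1 : G) = 0 :=
  idx_eq_of_pow_eq s hs _ _ (orderOf_pos s) (pow_zero s)

theorem idx_mul (s : G) (hs : ∀ x, x ∈ Subgroup.zpowers s) (g h : G) :
    idx s (g * h) = (idx s g + idx s h) % orderOf s := by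
  rw [← idx_pow s hs, pow_add, pow_idx s hs, pow_idx s hs]

theorem idx_mul_self (s : G) (hs : ∀ x, x ∈ Subgroup.zpowers s) (g : G) :
    idx s (g * s) = (idx s g + 1) % orderOf s := by
  rw [← idx_pow s hs, pow_succ, pow_idx s hs]

/-- `(a % n + b) / n + a / n = (a + b) / n`. -/
theorem carry_add (a b n : ℕ) (hn : 0 < n) : (a % n + b) / n + a / n = (a + b) / n := by
  conv_rhs => rw [← Nat.div_add_mod a n, add_assoc, Nat.mul_add_div hn]
  ring

end idx

section sums

variable {G : Type*} [Group G] [Finite G] {M : Type*} [AddCommGroup M]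

/-- Cyclic shift of a sum over the powers of `s`. -/
theorem sum_range_pow_succ (s : G) (F : G → M) :
    ∑ l ∈ range (orderOf s), F (s ^ (l + 1)) = ∑ l ∈ range (orderOf s), F (s ^ l) := by
  have h := Finset.sum_range_succ (fun l => F (s ^ l)) (orderOf s)
  have h' := Finset.sum_range_succ' (fun l => F (s ^ l)) (orderOf s)
  rw [h] at h'
  simp only [pow_orderOf_eq_one, pow_zero] at h'
  exact (add_right_cancel h').symm

/-- A sum over `G` is a sum over the exponents `i < orderOf s`. -/
theorem sum_eq_sum_range [Fintype G] (s : G) (hs : ∀ x, x ∈ Subgroup.zpowers s) (F : G → M) :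
    ∑ g : G, F g = ∑ l ∈ range (orderOf s), F (s ^ l) := by
  symm
  refine Finset.sum_nbij' (fun l => s ^ l) (fun g => idx s g) ?_ ?_ ?_ ?_ ?_
  · intro l _; exact Finset.mem_univ _
  · intro g _; exact Finset.mem_range.2 (idx_lt s g)
  · intro l hl
    rw [idx_pow s hs, Nat.mod_eq_of_lt (Finset.mem_range.1 hl)]
  · intro g _; exact pow_idx s hs g
  · intro l _; rfl

end sums

variable {k G : Type u} [CommRing k] [Group G] [Fintype G]

/-- The carry cocycle `(g, h) ↦ ((idx g + idx h) / n) • a`. -/
noncomputable def cyc (A : Rep k G) (s : G) (a : A) : G × G → A :=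
  fun p => ((idx s p.1 + idx s p.2) / orderOf s) • a

theorem cyc_apply (A : Rep k G) (s : G) (a : A) (g h : G) :
    cyc A s a (g, h) = ((idx s g + idx s h) / orderOf s) • a := rfl

theorem cyc_add (A : Rep k G) (s : G) (a b : A) : cyc A s (a + b) = cyc A s a + cyc A s b := by
  funext p; simp [cyc, smul_add]

theorem cyc_zero (A : Rep k G) (s : G) : cyc A s (0 : A) = 0 := by
  funext p; simp [cyc]

theorem cyc_smul (A : Rep k G) (s : G) (c : k) (a : A) : cyc A s (c • a) = c • cyc A s a := by
  funext p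
  exact smul_comm _ c a

theorem cyc_nsmul (A : Rep k G) (s : G) (m : ℕ) (a : A) : cyc A s (m • a) = m • cyc A s a := by
  funext p
  exact smul_comm _ m a

/-- `cyc A s a` is a 2-cocycle when `a` is invariant. -/
theorem cyc_mem_cocycles₂ (A : Rep k G) (s : G) (hs : ∀ x, x ∈ Subgroup.zpowers s) (a : A)
    (ha : ∀ g, A.ρ g a = a) : cyc A s a ∈ cocycles₂ A := by
  rw [mem_cocycles₂_iff]
  intro g h j
  simp only [cyc_apply, map_nsmul, ha, ← add_nsmul]
  congr 1
  rw [idx_mul s hs g h, idx_mul s hs h j, carry_add _ _ _ (orderOf_pos s),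
    add_comm (idx s g) ((idx s h + idx s j) % orderOf s), add_comm ((idx s h + idx s j) / orderOf s),
    carry_add _ _ _ (orderOf_pos s)]
  congr 1
  ring

/-- Partial norm `∑_{j<m} ρ(s^j) b`. -/
noncomputable def pnorm (A : Rep k G) (s : G) (b : A) (m : ℕ) : A :=
  ∑ j ∈ range m, A.ρ (s ^ j) b

theorem pnorm_add (A : Rep k G) (s : G) (b : A) (m m' : ℕ) :
    pnorm A s b (m + m') = pnorm A s b m + A.ρ (s ^ m) (pnorm A s b m') := by
  unfold pnorm
  rw [Finset.sum_range_add, map_sum]
  congr 1
  refine Finset.sum_congr rfl fun j _ => ?_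
  rw [pow_add, map_mul]; rfl

theorem pnorm_orderOf (A : Rep k G) (s : G) (hs : ∀ x, x ∈ Subgroup.zpowers s) (b : A) :
    pnorm A s b (orderOf s) = ∑ g : G, A.ρ g b := by
  unfold pnorm
  exact (sum_eq_sum_range s hs (fun g => A.ρ g b)).symm

theorem pnorm_div_mod (A : Rep k G) (s : G) (b : A) (m : ℕ) :
    pnorm A s b m = (m / orderOf s) • pnorm A s b (orderOf s) + pnorm A s b (m % orderOf s) := by
  have key : ∀ q r : ℕ, pnorm A s b (orderOf s * q + r) =
      q • pnorm A s b (orderOf s) + pnorm A s b r := by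
    intro q
    induction q with
    | zero => intro r; simp
    | succ q ih =>
      intro r
      have : orderOf s * (q + 1) + r = orderOf s + (orderOf s * q + r) := by ring
      rw [this, pnorm_add, pow_orderOf_eq_one, map_one, ih r, succ_nsmul]
      simp only [Module.End.one_apply]
      abel
  conv_lhs => rw [← Nat.div_add_mod m (orderOf s)]
  exact key _ _

/-- `cyc A s a` is a coboundary iff `a` is a norm. -/
theorem cyc_mem_coboundaries₂_iff (A : Rep k G) (s : G) (hs : ∀ x, x ∈ Subgroup.zpowers s) (a : A) :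
    cyc A s a ∈ coboundaries₂ A ↔ ∃ b : A, a = ∑ g : G, A.ρ g b := by
  constructor
  · rintro ⟨x, hx⟩
    by_cases h1 : orderOf s = 1
    · -- trivial group
      have hs1 : s = 1 := orderOf_eq_one_iff.1 h1
      have hall : ∀ g : G, g = 1 := by
        intro g
        have := hs g
        rw [hs1, Subgroup.zpowers_one_eq_bot, Subgroup.mem_bot] at this
        exact this
      refine ⟨a, ?_⟩
      rw [Fintype.sum_eq_single (1 : G) (fun g hg => absurd (hall g) hg)]
      simp
    · refine ⟨x s, ?_⟩
      have hn2 : 2 ≤ orderOf s := by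
        have := orderOf_pos s
        omega
      have hidx : idx s s = 1 := idx_eq_of_pow_eq s hs s 1 (by omega) (pow_one s)
      -- sum of the coboundary over (s^i, s)
      have e1 : ∑ i ∈ range (orderOf s), cyc A s a (s ^ i, s) = a := by
        rw [Finset.sum_eq_single (orderOf s - 1)]
        · rw [cyc_apply, idx_pow s hs, Nat.mod_eq_of_lt (by omega), hidx]
          have : (orderOf s - 1 + 1) / orderOf s = 1 := by
            rw [Nat.sub_add_cancel (by omega)]
            exact Nat.div_self (orderOf_pos s)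
          rw [this, one_smul]
        · intro i hi hne
          have hi' := Finset.mem_range.1 hi
          rw [cyc_apply, idx_pow s hs, Nat.mod_eq_of_lt hi', hidx]
          have : (i + 1) / orderOf s = 0 := Nat.div_eq_of_lt (by omega)
          rw [this, zero_smul]
        · intro h
          exact absurd (Finset.mem_range.2 (by omega)) h
      have e2 : ∑ i ∈ range (orderOf s), cyc A s a (s ^ i, s) =
          ∑ i ∈ range (orderOf s), (A.ρ (s ^ i) (x s) - x (s ^ (i + 1)) + x (s ^ i)) := by
        refine Finset.sum_congr rfl fun i _ => ?_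
        rw [← hx, d₁₂_hom_apply, pow_succ]
      rw [← e1, e2, Finset.sum_add_distrib, Finset.sum_sub_distrib, sum_range_pow_succ s x,
        sub_add_cancel]
      exact (sum_eq_sum_range s hs (fun g => A.ρ g (x s))).symm
  · rintro ⟨b, rfl⟩
    refine ⟨fun g => pnorm A s b (idx s g), ?_⟩
    funext ⟨g, h⟩
    rw [d₁₂_hom_apply, cyc_apply]
    simp only
    have h1 : A.ρ g (pnorm A s b (idx s h)) + pnorm A s b (idx s g) =
        pnorm A s b (idx s g + idx s h) := by
      rw [pnorm_add, pow_idx s hs g, add_comm]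
    rw [idx_mul s hs g h, sub_add_eq_add_sub, h1, pnorm_div_mod A s b (idx s g + idx s h),
      pnorm_orderOf A s hs b, add_sub_cancel_right]

/-- Every 2-cocycle is cohomologous to a carry cocycle `cyc A s a`, with
`a = ∑_{i<n} f (s^i, s)` invariant. -/
theorem exists_sub_cyc_mem_coboundaries₂ (A : Rep k G) (s : G) (hs : ∀ x, x ∈ Subgroup.zpowers s)
    (f : G × G → A) (hf : f ∈ cocycles₂ A) :
    ∃ a : A, (∀ g, A.ρ g a = a) ∧ a = ∑ i ∈ range (orderOf s), f (s ^ i, s) ∧
      f - cyc A s a ∈ coboundaries₂ A := by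
  obtain ⟨n, hn⟩ : ∃ n : ℕ, n = orderOf s := ⟨_, rfl⟩
  have hnpos : 0 < n := hn ▸ orderOf_pos s
  have hcoc := (mem_cocycles₂_iff f).1 hf
  obtain ⟨a, ha⟩ : ∃ a : A, a = ∑ i ∈ range n, f (s ^ i, s) := ⟨_, rfl⟩
  -- X j := -f(1,1) + ∑_{l<j} f(s^l, s)
  obtain ⟨X, hX⟩ : ∃ X : ℕ → A, X = fun j => -f (1, 1) + ∑ l ∈ range j, f (s ^ l, s) := ⟨_, rfl⟩
  obtain ⟨x, hx⟩ : ∃ x : G → A, x = fun g => X (idx s g) := ⟨_, rfl⟩
  have hX0 : X 0 = -f (1, 1) := by simp [hX]
  have hXsucc : ∀ j, X (j + 1) = X j + f (s ^ j, s) := by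
    intro j; simp only [hX, Finset.sum_range_succ]; abel
  have hXn : X n = -f (1, 1) + a := by rw [hX, ha]
  have hidxlt : ∀ g, idx s g < n := fun g => hn ▸ idx_lt s g
  have hidxmul : ∀ g h, idx s (g * h) = (idx s g + idx s h) % n := fun g h => hn ▸ idx_mul s hs g h
  have hidxpow : ∀ i, idx s (s ^ i) = i % n := fun i => hn ▸ idx_pow s hs i
  have hpown : s ^ n = 1 := hn ▸ pow_orderOf_eq_one s
  have hcycapp : ∀ (b : A) (g h : G), cyc A s b (g, h) = ((idx s g + idx s h) / n) • b :=
    fun b g h => by rw [cyc_apply, hn]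
  -- key2: x u + f(u, s) - x (u * s) = ((idx u + 1) / n) • a
  have key2 : ∀ u : G, x u + f (u, s) - x (u * s) = ((idx s u + 1) / n) • a := by
    intro u
    have hu := hidxlt u
    have e1 : x u + f (u, s) = X (idx s u + 1) := by
      rw [hXsucc]
      simp only [hx]
      rw [pow_idx s hs u]
    rw [e1]
    simp only [hx]
    have e5 : idx s (u * s) = (idx s u + 1) % n := hn ▸ idx_mul_self s hs u
    rw [e5]
    by_cases hlt : idx s u + 1 < n
    · rw [Nat.mod_eq_of_lt hlt, sub_self, Nat.div_eq_of_lt hlt, zero_smul]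
    · have heq : idx s u + 1 = n := by omega
      rw [heq, Nat.mod_self, Nat.div_self hnpos, one_smul, hXn, hX0]
      abel
  -- main identity by induction on j
  have f_one : ∀ g : G, f (g, 1) = A.ρ g (f (1, 1)) := by
    intro g
    have := hcoc g 1 1
    simp only [mul_one] at this
    exact add_right_cancel this
  have main : ∀ j : ℕ, ∀ g : G,
      ((idx s g + j) / n) • a = f (g, s ^ j) + A.ρ g (X j) - x (g * s ^ j) + x g := by
    intro j
    induction j with
    | zero =>
      intro g
      rw [add_zero, Nat.div_eq_of_lt (hidxlt g), zero_smul, pow_zero, mul_one, hX0, map_neg,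
        f_one g]
      abel
    | succ j ih =>
      intro g
      have hc := hcoc g (s ^ j) s
      have e1 : f (g, s ^ (j + 1)) = f (g * s ^ j, s) + f (g, s ^ j) - A.ρ g (f (s ^ j, s)) := by
        rw [pow_succ, eq_sub_iff_add_eq, add_comm (f (g, s ^ j * s)), hc]
      have e2 := key2 (g * s ^ j)
      have e3 : idx s (g * s ^ j) = (idx s g + j) % n := by
        rw [hidxmul, hidxpow, Nat.add_mod_mod]
      rw [e3] at e2
      have e4 : ((idx s g + (j + 1)) / n) • a =
          (((idx s g + j) % n + 1) / n) • a + ((idx s g + j) / n) • a := by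
        rw [← add_nsmul, carry_add _ _ _ hnpos, add_assoc]
      rw [e4, ih g, ← e2, e1, hXsucc, map_add, pow_succ, ← mul_assoc]
      abel
  have main' : ∀ g h : G, cyc A s a (g, h) = f (g, h) + A.ρ g (x h) - x (g * h) + x g := by
    intro g h
    have := main (idx s h) g
    rw [pow_idx s hs h] at this
    rw [hcycapp]
    simp only [hx]
    simp only [hx] at this
    exact this
  have hcob : f - cyc A s a ∈ coboundaries₂ A := by
    refine ⟨-x, ?_⟩
    funext ⟨g, h⟩
    rw [d₁₂_hom_apply]
    simp only [Pi.neg_apply, Pi.sub_apply, map_neg]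
    rw [main' g h]
    abel
  have hcyc : cyc A s a ∈ cocycles₂ A := by
    have h1 : f - (f - cyc A s a) ∈ cocycles₂ A :=
      Submodule.sub_mem _ hf (coboundaries₂_le_cocycles₂ A hcob)
    rwa [sub_sub_cancel] at h1
  -- invariance of a
  have hinv_s : A.ρ s a = a := by
    by_cases h1 : n = 1
    · have hs1 : s = 1 := orderOf_eq_one_iff.1 (hn ▸ h1)
      rw [hs1, map_one]; rfl
    · have hn2 : 2 ≤ n := by omega
      have hidx : idx s s = 1 := idx_eq_of_pow_eq s hs s 1 (by omega) (pow_one s)
      have hidx' : idx s (s ^ (n - 1)) = n - 1 := by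
        rw [hidxpow, Nat.mod_eq_of_lt (by omega)]
      have hc := (mem_cocycles₂_iff _).1 hcyc s (s ^ (n - 1)) s
      have hpow : s * s ^ (n - 1) = 1 := by
        rw [← pow_succ', Nat.sub_add_cancel (by omega)]; exact hpown
      have hpow' : s ^ (n - 1) * s = 1 := by
        rw [← pow_succ, Nat.sub_add_cancel (by omega)]; exact hpown
      rw [hpow, hpow'] at hc
      have c1 : cyc A s a (1, s) = 0 := by
        rw [hcycapp, idx_one s hs, hidx, Nat.div_eq_of_lt (by omega), zero_smul]
      have c2 : cyc A s a (s, s ^ (n - 1)) = a := by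
        rw [hcycapp, hidx, hidx', Nat.add_sub_cancel' (by omega), Nat.div_self hnpos, one_smul]
      have c3 : cyc A s a (s ^ (n - 1), s) = a := by
        rw [hcycapp, hidx, hidx', Nat.sub_add_cancel (by omega), Nat.div_self hnpos, one_smul]
      have c4 : cyc A s a (s, 1) = 0 := by
        rw [hcycapp, idx_one s hs, hidx, Nat.div_eq_of_lt (by omega), zero_smul]
      rw [c1, c2, c3, c4, zero_add, add_zero] at hc
      exact hc.symm
  have hinv : ∀ g, A.ρ g a = a := by
    intro g
    rw [← pow_idx s hs g, map_pow]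
    generalize idx s g = m
    induction m with
    | zero => simp
    | succ m ih => rw [pow_succ, Module.End.mul_apply, hinv_s, ih]
  exact ⟨a, hinv, by rw [ha, hn], hcob⟩

end Fermat.Agent.S55.CycH2
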