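import Fermat.Agent.S55.CycH2.Functor
import Fermat.Agent.S55.GrpCoh.Defs

/-!
# S55 / CFT — explicit cyclic 2-cocycles under restriction and inflation, in `H²`

`rest` / `infl` are the abbreviations of `Fermat.Agent.S55.GrpCoh` for Mathlib's
`groupCohomology.map`.

* `rest_H2π_cyc` : `res^G_H [cyc_s a] = [cyc_t a]` for `H = ⟨t⟩`, `t = s ^ d`, `d * |H| = |G|`;
* `infl_H2π_cyc` : `inf [cyc_{s̄} ā] = [cyc_s ((|G| / |G ⧸ N|) • ā)]`.
-/

set_option autoImplicit false

universe u

open groupCohomology Finset CategoryTheory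

namespace Fermat.Agent.S55.CycH2

open Fermat.Agent.S55.GrpCoh

variable {k G : Type u} [CommRing k] [Group G] [Fintype G]

/-- Restriction of the class of a carry cocycle to the subgroup `H = ⟨t⟩`, `t = s ^ d`. -/
theorem rest_H2π_cyc (A : Rep.{u} k G) (s : G) (hs : ∀ x, x ∈ Subgroup.zpowers s)
    (H : Subgroup G) [Fintype H] (t : H) (ht : ∀ x : H, x ∈ Subgroup.zpowers t) (d : ℕ)
    (hd : (t : G) = s ^ d) (hdn : d * orderOf t = orderOf s) (a : A) (ha : ∀ g, A.ρ g a = a) :
    rest A H 2 (H2π A ⟨cyc A s a, cyc_mem_cocycles₂ A s hs a ha⟩) =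
      H2π (Rep.res H.subtype A) ⟨cyc (Rep.res H.subtype A) t a,
        cyc_mem_cocycles₂ (Rep.res H.subtype A) t ht a (fun h => ha h)⟩ := by
  have h1 := H2π_comp_map_apply (A := A) (B := Rep.res H.subtype A) H.subtype
    (𝟙 (Rep.res H.subtype A)) ⟨cyc A s a, cyc_mem_cocycles₂ A s hs a ha⟩
  rw [h1]
  congr 1
  apply cocycles₂_ext
  intro h h'
  exact cyc_res A s hs H t ht d hd hdn a h h'

/-- Inflation of the class of a carry cocycle of `G ⧸ N` (generator the image of `s`). -/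
theorem infl_H2π_cyc (A : Rep.{u} k G) (s : G) (hs : ∀ x, x ∈ Subgroup.zpowers s)
    (N : Subgroup G) [N.Normal] [Fintype (G ⧸ N)]
    (hsQ : ∀ x : G ⧸ N, x ∈ Subgroup.zpowers (QuotientGroup.mk s : G ⧸ N))
    (a : A.quotientToInvariants N) (ha : ∀ q, (A.quotientToInvariants N).ρ q a = a)
    (ha' : ∀ g, A.ρ g a.1 = a.1) :
    infl A N 2 (H2π (A.quotientToInvariants N)
        ⟨cyc (A.quotientToInvariants N) (QuotientGroup.mk s : G ⧸ N) a,
          cyc_mem_cocycles₂ (A.quotientToInvariants N) _ hsQ a ha⟩) =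
      H2π A ⟨cyc A s ((orderOf s / orderOf (QuotientGroup.mk s : G ⧸ N)) • a.1),
        cyc_mem_cocycles₂ A s hs _ (fun g => by rw [map_nsmul, ha' g])⟩ := by
  have h1 := H2π_comp_map_apply (A := A.quotientToInvariants N) (B := A) (QuotientGroup.mk' N)
    (Rep.ofHom <| A.ρ.quotientToInvariants_lift N)
    ⟨cyc (A.quotientToInvariants N) (QuotientGroup.mk s : G ⧸ N) a,
      cyc_mem_cocycles₂ (A.quotientToInvariants N) _ hsQ a ha⟩
  rw [h1, H2π_eq_iff]
  have h2 := infl_cyc_sub_mem_coboundaries₂ A s hs (QuotientGroup.mk' N)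
    (QuotientGroup.mk'_surjective N) a.1 ha'
  convert h2 using 1
  funext ⟨g, h⟩
  simp only [Pi.sub_apply]
  congr 1

/-- Invariance of an element of `A^N` under `G ⧸ N` gives invariance under `G`. -/
theorem invariant_of_quotient (A : Rep.{u} k G) (N : Subgroup G) [N.Normal]
    (a : A.quotientToInvariants N) (ha : ∀ q, (A.quotientToInvariants N).ρ q a = a) (g : G) :
    A.ρ g a.1 = a.1 :=
  congrArg Subtype.val (ha (QuotientGroup.mk g))

end Fermat.Agent.S55.CycH2
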