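import Fermat.Agent.S55.CycH2.Basic

/-!
# S55 / CFT — explicit cyclic 2-cocycles: functoriality

Continuation of `CycH2/Basic.lean` (`cyc A s a (g, h) = ((idx g + idx h) / n) • a`):

* `H2π_cyc_eq_zero_iff`, `exists_H2π_eq_cyc`: `A^G / N A ≃ H²(G, A)` in `H2π` form;
* `cyc_hom`: naturality in the module;
* `cyc_res`: restriction to the subgroup generated by `t = s ^ d` (`d ∣ n`) is literally the carry
  cocycle for the generator `t`;
* `infl_cyc_sub_mem_coboundaries₂`: the inflation of the carry cocycle of a quotient `π : G ↠ Q`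
  (generator `π s`, order `f`) is cohomologous to `cyc A s ((n / f) • a)`;
* `cyc_pow_sub_mem_coboundaries₂`: change of generator `s' = s ^ u`, `u * u' ≡ 1 mod n`:
  `cyc A s' a ∼ cyc A s (u' • a)`.
-/

set_option autoImplicit false

universe u

open groupCohomology Finset

namespace Fermat.Agent.S55.CycH2

variable {k G : Type u} [CommRing k] [Group G] [Fintype G]

/-- Naturality of the carry cocycle in the module. -/
theorem cyc_hom {A B : Rep k G} (φ : A ⟶ B) (s : G) (a : A) (p : G × G) :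
    φ.hom (cyc A s a p) = cyc B s (φ.hom a) p := by
  simp only [cyc]
  exact map_nsmul _ _ _

section H2

variable (A : Rep.{u} k G) (s : G) (hs : ∀ x, x ∈ Subgroup.zpowers s)

include hs in
/-- The class of `cyc A s a` in `H²(G, A)` vanishes iff `a` is a norm. -/
theorem H2π_cyc_eq_zero_iff (a : A) (ha : ∀ g, A.ρ g a = a) :
    H2π A ⟨cyc A s a, cyc_mem_cocycles₂ A s hs a ha⟩ = 0 ↔ ∃ b : A, a = ∑ g : G, A.ρ g b := by
  rw [H2π_eq_zero_iff]
  exact cyc_mem_coboundaries₂_iff A s hs a

include hs in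
/-- Every class in `H²(G, A)` is the class of a carry cocycle. -/
theorem exists_H2π_eq_cyc (x : H2 A) :
    ∃ (a : A) (ha : ∀ g, A.ρ g a = a), x = H2π A ⟨cyc A s a, cyc_mem_cocycles₂ A s hs a ha⟩ := by
  induction x using H2_induction_on with
  | h f =>
    obtain ⟨a, ha, -, hcob⟩ := exists_sub_cyc_mem_coboundaries₂ A s hs f f.2
    exact ⟨a, ha, (H2π_eq_iff _ _).2 hcob⟩

end H2

section res

variable {k' : Type*} [CommRing k'] {G' : Type*} [Group G'] [Finite G']

/-- The index of an element of a subgroup `H = ⟨t⟩`, `t = s ^ d`, `d * |H| = |G|`. -/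
theorem idx_coe_subgroup (s : G') (hs : ∀ x, x ∈ Subgroup.zpowers s) (H : Subgroup G') (t : H)
    (ht : ∀ x : H, x ∈ Subgroup.zpowers t) (d : ℕ) (hd : (t : G') = s ^ d)
    (hdn : d * orderOf t = orderOf s) (h : H) : idx s (h : G') = d * idx t h := by
  refine idx_eq_of_pow_eq s hs _ _ ?_ ?_
  · rw [← hdn]
    have hdpos : 0 < d := by
      rcases Nat.eq_zero_or_pos d with h0 | h0
      · rw [h0, zero_mul] at hdn
        exact absurd hdn.symm (orderOf_pos s).ne'
      · exact h0
    exact Nat.mul_lt_mul_of_pos_left (idx_lt t h) hdpos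
  · rw [pow_mul, ← hd, ← Subgroup.coe_pow, pow_idx t ht h]

end res

/-- Restriction of a carry cocycle to the subgroup generated by `t = s ^ d` (`d * |H| = |G|`)
is the carry cocycle of `H` for the generator `t`. -/
theorem cyc_res (A : Rep k G) (s : G) (hs : ∀ x, x ∈ Subgroup.zpowers s) (H : Subgroup G)
    [Fintype H] (t : H) (ht : ∀ x : H, x ∈ Subgroup.zpowers t) (d : ℕ) (hd : (t : G) = s ^ d)
    (hdn : d * orderOf t = orderOf s) (a : A) (h h' : H) :
    cyc A s a ((h : G), (h' : G)) = cyc (Rep.res H.subtype A) t a (h, h') := by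
  have hdpos : 0 < d := by
    rcases Nat.eq_zero_or_pos d with h0 | h0
    · rw [h0, zero_mul] at hdn
      exact absurd hdn.symm (orderOf_pos s).ne'
    · exact h0
  rw [cyc_apply, cyc_apply, idx_coe_subgroup s hs H t ht d hd hdn h,
    idx_coe_subgroup s hs H t ht d hd hdn h', ← hdn, ← mul_add, Nat.mul_div_mul_left _ _ hdpos]

section infl

variable {Q : Type*} [Group Q] [Finite Q]

theorem forall_mem_zpowers_map (s : G) (hs : ∀ x, x ∈ Subgroup.zpowers s) (π : G →* Q)
    (hπ : Function.Surjective π) : ∀ y : Q, y ∈ Subgroup.zpowers (π s) := by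
  intro y
  obtain ⟨g, rfl⟩ := hπ y
  obtain ⟨z, rfl⟩ := Subgroup.mem_zpowers_iff.1 (hs g)
  exact Subgroup.mem_zpowers_iff.2 ⟨z, (map_zpow π s z).symm⟩

theorem idx_map (s : G) (hs : ∀ x, x ∈ Subgroup.zpowers s) (π : G →* Q)
    (hπ : Function.Surjective π) (g : G) :
    idx (π s) (π g) = idx s g % orderOf (π s) := by
  conv_lhs => rw [← pow_idx s hs g, map_pow]
  exact idx_pow (π s) (forall_mem_zpowers_map s hs π hπ) _

/-- The arithmetic identity behind inflation. -/
theorem infl_arith (i j n f : ℕ) (hf : 0 < f) (hfn : f ∣ n) :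
    (i % f + j % f) / f + i / f + j / f = (i + j) / n * (n / f) + (i + j) % n / f := by
  have h1 : (i % f + j % f) / f + i / f + j / f = (i + j) / f := by
    conv_rhs => rw [← Nat.div_add_mod i f, ← Nat.div_add_mod j f]
    have : f * (i / f) + i % f + (f * (j / f) + j % f) = f * (i / f + j / f) + (i % f + j % f) := by
      ring
    rw [this, Nat.mul_add_div hf]
    ring
  have h2 : (i + j) / n * (n / f) + (i + j) % n / f = (i + j) / f := by
    obtain ⟨c, rfl⟩ := hfn
    conv_rhs => rw [← Nat.div_add_mod (i + j) (f * c)]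
    rw [Nat.mul_div_cancel_left c hf, mul_assoc, Nat.mul_add_div hf]
    ring
  rw [h1, h2]

/-- Inflation: for a surjection `π : G ↠ Q` onto a (cyclic) group generated by `π s` of order `f`,
the inflated carry cocycle `(g, h) ↦ carry_Q (π g, π h) • a` is cohomologous to
`cyc A s ((n / f) • a)`. -/
theorem infl_cyc_sub_mem_coboundaries₂ (A : Rep k G) (s : G) (hs : ∀ x, x ∈ Subgroup.zpowers s)
    (π : G →* Q) (hπ : Function.Surjective π) (a : A) (ha : ∀ g, A.ρ g a = a) :
    (fun p : G × G => ((idx (π s) (π p.1) + idx (π s) (π p.2)) / orderOf (π s)) • a)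
        - cyc A s ((orderOf s / orderOf (π s)) • a) ∈ coboundaries₂ A := by
  obtain ⟨n, hn⟩ : ∃ n : ℕ, n = orderOf s := ⟨_, rfl⟩
  obtain ⟨f, hf⟩ : ∃ f : ℕ, f = orderOf (π s) := ⟨_, rfl⟩
  have hfpos : 0 < f := hf ▸ orderOf_pos (π s)
  have hfn : f ∣ n := by rw [hf, hn]; exact orderOf_map_dvd π s
  refine ⟨-(fun g => (idx s g / f) • a), ?_⟩
  funext ⟨g, h⟩
  rw [d₁₂_hom_apply]
  simp only [Pi.neg_apply, Pi.sub_apply, map_neg, map_nsmul, ha, cyc_apply]
  rw [idx_map s hs π hπ g, idx_map s hs π hπ h, idx_mul s hs g h, ← hn, ← hf]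
  have key := infl_arith (idx s g) (idx s h) n f hfpos hfn
  have key' := congrArg (fun m : ℕ => m • a) key
  simp only [add_nsmul, mul_nsmul] at key'
  rw [← sub_eq_zero]
  have e : ((idx s g % f + idx s h % f) / f) • a =
      (n / f) • ((idx s g + idx s h) / n) • a + ((idx s g + idx s h) % n / f) • a
        - (idx s g / f) • a - (idx s h / f) • a := by
    rw [← key']; abel
  rw [e, smul_comm (n / f) ((idx s g + idx s h) / n) a]
  abel

end infl

/-- The arithmetic identity behind the change of generator. -/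
theorem gen_arith (i j n u : ℕ) (hn : 0 < n) :
    u * i / n + u * j / n + (u * i % n + u * j % n) / n
      = u * ((i + j) / n) + u * ((i + j) % n) / n := by
  have h1 : u * i / n + u * j / n + (u * i % n + u * j % n) / n = u * (i + j) / n := by
    have : u * (i + j) = n * (u * i / n + u * j / n) + (u * i % n + u * j % n) := by
      have e1 := Nat.div_add_mod (u * i) n
      have e2 := Nat.div_add_mod (u * j) n
      rw [mul_add, mul_add]
      omega
    rw [this, Nat.mul_add_div hn]
  have h2 : u * ((i + j) / n) + u * ((i + j) % n) / n = u * (i + j) / n := by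
    have : u * (i + j) = n * (u * ((i + j) / n)) + u * ((i + j) % n) := by
      conv_lhs => rw [← Nat.div_add_mod (i + j) n]
      ring
    conv_rhs => rw [this]
    rw [Nat.mul_add_div hn]
  rw [h1, h2]

/-- Change of generator: if `u * u' ≡ 1 mod n` then `s ^ u` generates `G` and
`cyc A (s ^ u) a ∼ cyc A s (u' • a)`. -/
theorem cyc_pow_sub_mem_coboundaries₂ (A : Rep k G) (s : G) (hs : ∀ x, x ∈ Subgroup.zpowers s)
    (u u' : ℕ) (huu : u * u' % orderOf s = 1 % orderOf s) (a : A) (ha : ∀ g, A.ρ g a = a) :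
    (∀ x, x ∈ Subgroup.zpowers (s ^ u)) ∧
      cyc A (s ^ u) a - cyc A s (u' • a) ∈ coboundaries₂ A := by
  obtain ⟨n, hn⟩ : ∃ n : ℕ, n = orderOf s := ⟨_, rfl⟩
  have hnpos : 0 < n := hn ▸ orderOf_pos s
  have hpow : (s ^ u) ^ u' = s := by
    rw [← pow_mul, ← pow_mod_orderOf, huu, pow_mod_orderOf, pow_one]
  have hs' : ∀ x, x ∈ Subgroup.zpowers (s ^ u) := by
    intro x
    obtain ⟨z, rfl⟩ := Subgroup.mem_zpowers_iff.1 (hs x)
    refine Subgroup.mem_zpowers_iff.2 ⟨u' * z, ?_⟩
    rw [zpow_mul, zpow_natCast, hpow]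
  have hord : orderOf (s ^ u) = n := by
    rw [hn, orderOf_eq_card_of_forall_mem_zpowers hs', orderOf_eq_card_of_forall_mem_zpowers hs]
  have hidx : ∀ g, idx (s ^ u) g = u' * idx s g % n := by
    intro g
    have : (s ^ u) ^ (u' * idx s g) = g := by rw [pow_mul, hpow, pow_idx s hs g]
    rw [← hord, ← idx_pow (s ^ u) hs', this]
  refine ⟨hs', -(fun g => (u' * idx s g / n) • a), ?_⟩
  funext ⟨g, h⟩
  rw [d₁₂_hom_apply]
  simp only [Pi.neg_apply, Pi.sub_apply, map_neg, map_nsmul, ha, cyc_apply]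
  rw [hidx g, hidx h, idx_mul s hs g h, hord, ← hn]
  have key := gen_arith (idx s g) (idx s h) n u' hnpos
  have key' := congrArg (fun m : ℕ => m • a) key
  simp only [add_nsmul, mul_nsmul] at key'
  rw [← sub_eq_zero]
  have e : ((u' * idx s g % n + u' * idx s h % n) / n) • a =
      ((idx s g + idx s h) / n) • u' • a + (u' * ((idx s g + idx s h) % n) / n) • a
        - (u' * idx s g / n) • a - (u' * idx s h / n) • a := by
    rw [← key']; abel
  rw [e]
  abel

end Fermat.Agent.S55.CycH2
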